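/-
S17 project, packages W* (weak Mordell–Weil) — SHARED DEFINITIONS, FROZEN (owner: helper5016).

Paper source: origin/helper5016:notes/MAZUR_S17_scout_helper5016.md (sections 1, 2 and the addendum).
Everything is stated with explicit divisors and functions; no Jacobian, no reduction mod p.

Conventions
* `K` algebraically closed of characteristic 0, `F` a function field (`IsCurveOver K F`,
  `Algebra.EssFiniteType K F`); places have residue field `K`.
* `evK P f : K` is the value `f(P)` (junk `0` at a pole); `evalDiv f D = ∏_P f(P)^(D P)`.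
* `IsDivOf f D` : `f ≠ 0` and `D = div f`;  `IsClassOf D x` : `deg D = 0` and `[D] = x` in `Pic0`.
* Galois side: `F = FBar F₀`, `GQ` acts through `ModularCurve.arithmeticGalois F₀`; a number field
  is an `IntermediateField ℚ (AlgebraicClosure ℚ)` that is finite over `ℚ`, and "`K₁`-rational"
  means fixed by `K₁.fixingSubgroup`.
If a definition is wrong or inconvenient: tip subject `BUG S17 W Defs <one line>`.
-/
import Mathlib
import Fermat.Agent.S17.Defs
import Fermat.Prelude.Def_AlgebraicCurve_Repartitions

set_option autoImplicit false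

noncomputable section

namespace Fermat.Agent.S17.W

open AlgebraicCurve ModularCurve

section General

variable {K F : Type*} [Field K] [Field F] [Algebra K F]

open Classical in
/-- The value `f(P) ∈ K` of `f` at the place `P` (junk value `0` if `f` has a pole at `P`;
meaningful when `algebraMap K P.ResidueField` is bijective, e.g. `K` algebraically closed and
`F` a curve over `K`). -/
def evK (P : Place K F) (f : F) : K :=
  if h : f ∈ P.toValuationSubring then
    Function.invFun (algebraMap K P.ResidueField)
      (IsLocalRing.residue P.toValuationSubring ⟨f, h⟩)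
  else 0

/-- `f(D) = ∏_P f(P) ^ (D P)`. -/
def evalDiv (f : F) (D : Divisor K F) : K := D.prod fun P n => evK P f ^ n

/-- `D` is the divisor of the nonzero function `f`. -/
def IsDivOf (f : F) (D : Divisor K F) : Prop := f ≠ 0 ∧ ∀ v : Place K F, D v = v.ord f

/-- `D` has degree `0` and class `x` in `Pic0`. -/
def IsClassOf (D : Divisor K F) (x : Pic0 K F) : Prop :=
  ∃ h : D ∈ Divisor.degZero (K := K) (F := F), Pic0.mk ⟨D, h⟩ = x

/-- The Weil pairing `e₂(t, s)` is trivial: for SOME (equivalently, by Weil reciprocity, for all)
representatives `E ∈ t`, `E' ∈ s` with disjoint supports and functions `div f = 2E`,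
`div f' = 2E'` one has `f(E') = f'(E)`. -/
def WeilTrivial (t s : Pic0 K F) : Prop :=
  ∃ (E E' : Divisor K F) (f f' : F), IsClassOf E t ∧ IsClassOf E' s ∧
    IsDivOf f (2 • E) ∧ IsDivOf f' (2 • E') ∧ Disjoint E.support E'.support ∧
    evalDiv f E' = evalDiv f' E

end General

section Galois

variable (F₀ : IntermediateField ℚ (LaurentSeries ℚ))

/-- The divisor `D` is fixed by the subgroup `H` of the absolute Galois group. -/
def DivFixed (H : Subgroup GQ) (D : Divisor (AlgebraicClosure ℚ) (FBar F₀)) : Prop :=
  ∀ σ ∈ H, arithmeticGalois F₀ σ • D = D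

/-- The function `f` is fixed by the subgroup `H`. -/
def FunFixed (H : Subgroup GQ) (f : FBar F₀) : Prop :=
  ∀ σ ∈ H, arithmeticGalois F₀ σ • f = f

/-- The class `x` is fixed by the subgroup `H`. -/
def ClassFixed (H : Subgroup GQ) (x : Pic0 (AlgebraicClosure ℚ) (FBar F₀)) : Prop :=
  ∀ σ ∈ H, σ • x = x

/-- `(E, f)` is an `H`-rational `2`-torsion datum for the class `t`:
`E` is an `H`-stable divisor of class `t`, `f` an `H`-fixed function with `div f = 2E`. -/
structure IsTwoDatum (H : Subgroup GQ) (t : Pic0 (AlgebraicClosure ℚ) (FBar F₀))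
    (E : Divisor (AlgebraicClosure ℚ) (FBar F₀)) (f : FBar F₀) : Prop where
  cls : IsClassOf E t
  fixedE : DivFixed F₀ H E
  fixedf : FunFixed F₀ H f
  div : IsDivOf f (2 • E)

/-- `D` is an `H`-stable representative of the class `x` whose support avoids the support of `E`. -/
structure IsRep (H : Subgroup GQ) (x : Pic0 (AlgebraicClosure ℚ) (FBar F₀))
    (E D : Divisor (AlgebraicClosure ℚ) (FBar F₀)) : Prop where
  cls : IsClassOf D x
  fixed : DivFixed F₀ H D
  disj : Disjoint D.support E.support

end Galois

/-- A finite intermediate field of `ℚ̄ / ℚ` is a number field (so `𝓞 K₁`, its primes and Mathlib's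
Selmer groups are available). -/
instance instNumberField (K₁ : IntermediateField ℚ (AlgebraicClosure ℚ))
    [FiniteDimensional ℚ K₁] : NumberField K₁ where
  to_charZero := inferInstance
  to_finiteDimensional := inferInstance

/-- External input (S27, for `ℓ = 2`, `k = 1`): the `2`-torsion count for EVERY function field
over `K` (it is applied to `F` and to its unramified quadratic covers `F(√f)`). -/
def TorsionCountTwo (K : Type) [Field K] : Prop :=
  ∀ (F' : Type) [Field F'] [Algebra K F'] [IsCurveOver K F'] [Algebra.EssFiniteType K F'],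
    Nat.card (Pic0.torsion K F' 2) = 2 ^ (2 * genusFF K F')

/-- External input (package DIV): `Pic0` of every function field over `K` is `2`-divisible. -/
def DivisibleTwo (K : Type) [Field K] : Prop :=
  ∀ (F' : Type) [Field F'] [Algebra K F'] [IsCurveOver K F'] [Algebra.EssFiniteType K F']
    (c : Pic0 K F'), ∃ y : Pic0 K F', (2 : ℕ) • y = c

/-- External input (package BR): every class has an open stabiliser, i.e. is fixed by
`Gal(ℚ̄ / K₁)` for some number field `K₁`. -/
def OpenStabilisers (F₀ : IntermediateField ℚ (LaurentSeries ℚ)) : Prop :=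
  ∀ x : Pic0 (AlgebraicClosure ℚ) (FBar F₀),
    ∃ K₁ : IntermediateField ℚ (AlgebraicClosure ℚ), FiniteDimensional ℚ K₁ ∧
      ClassFixed F₀ K₁.fixingSubgroup x

end Fermat.Agent.S17.W
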